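/-
S52 library (helper4): the `f`-bridge in the chart `t = 1`: lead's `dlH` is Klein's `f` along the polar
line `e + 3 z·w(e)`, `w = (f_v, -f_u)`.  One `ring` identity in three variables (≈ 15 s).
-/
import Mathlib
import Fermat.Agent.S52lib.FamH
import Fermat.Agent.S52lib.Klein.Forms

set_option autoImplicit false
set_option maxHeartbeats 0
set_option maxRecDepth 1000000

namespace Fermat.Agent.S52lib.Cusp5

open Fermat.Agent.S52lib.Fam Fermat.Agent.S52lib.Klein

variable {R : Type*} [CommRing R]

/-- **the `f`-bridge** (chart `t = 1`). -/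
theorem bridge_dlH (u v z : R) :
    kf u v * dlH (9 * kH u v) (27 * kT u v) 1 z =
      kf (u + 3 * z * kfv u v) (v - 3 * z * kfu u v) := by
  unfold dlH kf kH kT kfu kfv
  ring

end Fermat.Agent.S52lib.Cusp5
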