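/-
S52 library, block Cusp5, COMBINATION (helper4): `Cusp5Statement` of `S52lib/Main.lean` from
* helper3's `Klein.exists_klein_of_five_nsmul` (every point of order 5 is a universal point),
* the two instances over `ZMod r`, `r ≡ 4 mod 5` (golden ratio, fifth roots, no fifth roots of unity),
* the Klein-level cusp lemma (`CuspLemma`, helper1's `Cusp5/Cusp.lean`),
* the bridge identities between lead's family and Klein's forms (`Bridge`, helper3's
  `Klein/Bridge.lean`).
-/
import Mathlib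
import Fermat.Agent.S52lib.Main
import Fermat.Agent.S52lib.Klein.Univ

set_option autoImplicit false
set_option linter.unusedSectionVars false
set_option linter.style.haveILetI false

noncomputable section

namespace Fermat.Agent.S52lib.Cusp5

open WeierstrassCurve WeierstrassCurve.Affine Fermat.Agent.S52lib.Fam Fermat.Agent.S52lib.Klein

/-! ### arithmetic of `ZMod r`, `r ≡ 4 mod 5` -/

section zmod

variable (r : ℕ) [hr : Fact r.Prime]

/-- the golden ratio exists in `ZMod r` for `r ≡ 4 mod 5`, `r ≠ 2`. -/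
theorem exists_golden (hr5 : r % 5 = 4) (hr2 : r ≠ 2) : ∃ ph : ZMod r, ph ^ 2 = ph + 1 := by
  haveI : Fact (Nat.Prime 5) := ⟨by norm_num⟩
  have h5r : (5 : ℕ) ≠ r := by
    intro h
    rw [← h] at hr5
    norm_num at hr5
  have hsq : IsSquare ((5 : ℕ) : ZMod r) := by
    have := (ZMod.exists_sq_eq_prime_iff_of_mod_four_eq_one (p := 5) (q := r) (by norm_num) hr2)
    rw [← this]
    refine ⟨2, ?_⟩
    have : ((r : ℕ) : ZMod 5) = ((4 : ℕ) : ZMod 5) := by
      rw [ZMod.natCast_eq_natCast_iff]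
      exact hr5
    rw [this]
    norm_num
  obtain ⟨w, hw⟩ := hsq
  have h2 : (2 : ZMod r) ≠ 0 := by
    have : ((2 : ℕ) : ZMod r) ≠ 0 := by
      rw [Ne, ZMod.natCast_eq_zero_iff]
      intro h
      exact hr2 ((Nat.prime_dvd_prime_iff_eq hr.out Nat.prime_two).mp h)
    simpa using this
  refine ⟨(1 + w) / 2, ?_⟩
  have hw' : w * w = 5 := by rw [← hw]; norm_num
  field_simp
  linear_combination hw'

/-- every element of `ZMod r`, `r ≡ 4 mod 5`, is a fifth power. -/
theorem exists_fifth_root (hr5 : r % 5 = 4) (a : ZMod r) : ∃ b : ZMod r, b ^ 5 = a := by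
  by_cases ha : a = 0
  · exact ⟨0, by rw [ha]; ring⟩
  obtain ⟨j, hj⟩ : ∃ j, r = 5 * j + 4 := ⟨r / 5, by omega⟩
  refine ⟨a ^ (3 * j + 2), ?_⟩
  have h1 : a ^ (r - 1) = 1 := ZMod.pow_card_sub_one_eq_one ha
  have e : (3 * j + 2) * 5 = 1 + 3 * (r - 1) := by omega
  rw [← pow_mul, e, pow_add, pow_one, pow_mul', h1, one_pow, mul_one]

/-- there is no nontrivial fifth root of unity in `ZMod r`, `r ≡ 4 mod 5`. -/
theorem eq_one_of_pow_five_eq_one (hr5 : r % 5 = 4) (z : ZMod r) (hz : z ^ 5 = 1) : z = 1 := by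
  have hz0 : z ≠ 0 := by
    intro h
    rw [h] at hz
    norm_num at hz
  obtain ⟨j, hj⟩ : ∃ j, r = 5 * j + 4 := ⟨r / 5, by omega⟩
  have h1 : z ^ (r - 1) = 1 := ZMod.pow_card_sub_one_eq_one hz0
  have e : r - 1 = 5 * j + 3 := by omega
  rw [e, pow_add, pow_mul, hz, one_pow, one_mul] at h1
  -- `z³ = 1` and `z⁵ = 1` give `z = 1`
  have h2 : z ^ 2 = 1 := by
    have : z ^ 5 = z ^ 3 * z ^ 2 := by ring
    rw [this, h1, one_mul] at hz
    exact hz
  have : z ^ 3 = z ^ 2 * z := by ring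
  rw [this, h2, one_mul] at h1
  exact h1

end zmod

/-! ### the inputs -/

/-- **Input (helper1, `Cusp5/Cusp.lean`)**: the Klein-level cusp lemma over a field `K` with a
golden ratio and without fifth roots of unity: on the line `e + 3 z·w(e)`, `w(e) = (f_v, -f_u)(e)`,
through a point `e` with `f(e) ≠ 0` there is a zero `z` of `f` at which `-H·T` is a non-square. -/
def CuspLemma (K : Type) [Field K] : Prop :=
  (2 : K) ≠ 0 → (3 : K) ≠ 0 → (5 : K) ≠ 0 → (∃ g : K, g ^ 2 = g + 1) →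
    (∀ z : K, z ^ 5 = 1 → z = 1) → ∀ u v : K, kf u v ≠ 0 →
    ∃ z : K, kf (u + 3 * z * kfv u v) (v - 3 * z * kfu u v) = 0 ∧
      ¬ IsSquare (-(kH (u + 3 * z * kfv u v) (v - 3 * z * kfu u v) *
        kT (u + 3 * z * kfv u v) (v - 3 * z * kfu u v)))

/-- **Input (helper3, `Klein/Bridge.lean`)**: lead's family (chart `u = 1/t`) is Klein's forms along
the polar line `e + 3 z·w(e)`. -/
def Bridge (K : Type) [CommRing K] : Prop :=
  ∀ u v z : K,
    HpH (9 * kH u v) (27 * kT u v) 1 z =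
      9 * kH (u + 3 * z * kfv u v) (v - 3 * z * kfu u v) ∧
    TpH (9 * kH u v) (27 * kT u v) 1 z =
      27 * kT (u + 3 * z * kfv u v) (v - 3 * z * kfu u v) ∧
    kf u v * dlH (9 * kH u v) (27 * kT u v) 1 z =
      kf (u + 3 * z * kfv u v) (v - 3 * z * kfu u v)

/-! ### the combination -/

/-- **`Cusp5Statement` from the inputs.** -/
theorem cusp5_of_inputs (hcusp : ∀ (r : ℕ) [Fact r.Prime], CuspLemma (ZMod r))
    (hbridge : ∀ (r : ℕ) [Fact r.Prime], Bridge (ZMod r)) : Cusp5Statement := by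
  intro r hrF hr5 hr6 hb sb hD R hR0 hR5
  have hr : r.Prime := hrF.out
  have hr2 : r ≠ 2 := by
    rintro rfl
    exact hr6 (by norm_num)
  have hr3 : r ≠ 3 := by
    rintro rfl
    exact hr6 (by norm_num)
  have hr5' : r ≠ 5 := by
    rintro rfl
    norm_num at hr5
  have hne : ∀ p : ℕ, p.Prime → r ≠ p → ((p : ℕ) : ZMod r) ≠ 0 := by
    intro p hp hrp
    rw [Ne, ZMod.natCast_eq_zero_iff]
    intro h
    exact hrp ((Nat.prime_dvd_prime_iff_eq hr hp).mp h)
  have h2 : (2 : ZMod r) ≠ 0 := by simpa using hne 2 Nat.prime_two hr2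
  have h3 : (3 : ZMod r) ≠ 0 := by simpa using hne 3 Nat.prime_three hr3
  have h5 : (5 : ZMod r) ≠ 0 := by simpa using hne 5 (by norm_num) hr5'
  obtain ⟨ph, hph⟩ := exists_golden r hr5 hr2
  -- the point `R` is a universal point
  rcases R with _ | ⟨x, y, hxy⟩
  · exact absurd rfl hR0
  obtain ⟨u, v, h4, h6, -, -⟩ := exists_klein_of_five_nsmul (W := (base hb sb).toAffine) h2 h3 h5
    hph (exists_fifth_root r hr5) rfl rfl rfl hxy hR5
  have hh : hb = 9 * kH u v := by
    have : (3 : ZMod r) * hb = 27 * kH u v := h4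
    have h' : (3 : ZMod r) * (hb - 9 * kH u v) = 0 := by linear_combination this
    rcases mul_eq_zero.mp h' with h0 | h0
    · exact absurd h0 h3
    · exact sub_eq_zero.mp h0
  have hs : sb = 27 * kT u v := by
    have : (2 : ZMod r) * sb = 54 * kT u v := h6
    have h' : (2 : ZMod r) * (sb - 27 * kT u v) = 0 := by linear_combination this
    rcases mul_eq_zero.mp h' with h0 | h0
    · exact absurd h0 h2
    · exact sub_eq_zero.mp h0
  -- `f(e) ≠ 0`
  have hf : kf u v ≠ 0 := by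
    intro h0
    apply hD
    rw [hs, hh]
    have := klein u v
    rw [h0] at this
    linear_combination (729 : ZMod r) * this
  -- the cusp
  obtain ⟨z, hz0, hznsq⟩ := hcusp r h2 h3 h5 ⟨ph, hph⟩ (eq_one_of_pow_five_eq_one r hr5) u v hf
  obtain ⟨bH, bT, bD⟩ := hbridge r u v z
  refine ⟨z, ?_, ?_⟩
  · rw [hh, hs]
    rw [hz0] at bD
    rcases mul_eq_zero.mp bD with h0 | h0
    · exact absurd h0 hf
    · exact h0
  · rw [hh, hs, bH, bT]
    rintro ⟨w, hw⟩
    apply hznsq
    have h27 : (27 : ZMod r) ≠ 0 := by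
      have : (27 : ZMod r) = 3 ^ 3 := by norm_num
      rw [this]
      exact pow_ne_zero _ h3
    refine ⟨w / 27, ?_⟩
    field_simp
    linear_combination hw

end Fermat.Agent.S52lib.Cusp5
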