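/-
S52 library (helper4): the three bridge identities in the chart `t = 1` over every commutative ring.
The `T`-bridge comes from the `H`- and `f`-bridges by helper2's `Glue.TpH_bridge_one` (syzygies + sign),
since the direct degree-330 `ring` identity does not fit into 16 GB.
-/
import Mathlib
import Fermat.Agent.S52lib.Cusp5.BridgeD
import Fermat.Agent.S52lib.Cusp5.BridgeH
import Fermat.Agent.S52lib.Glue.BridgeT
import Fermat.Agent.S52lib.Cusp5.Combine

set_option autoImplicit false

namespace Fermat.Agent.S52lib.Cusp5

open Fermat.Agent.S52lib.Fam Fermat.Agent.S52lib.Klein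

/-- **the `T`-bridge** (chart `t = 1`). -/
theorem bridge_TpH {R : Type*} [CommRing R] (u v z : R) :
    TpH (9 * kH u v) (27 * kT u v) 1 z =
      27 * kT (u + 3 * z * kfv u v) (v - 3 * z * kfu u v) :=
  Fermat.Agent.S52lib.Glue.TpH_bridge_one (fun u v z => bridge_HpH u v z)
    (fun u v z => bridge_dlH u v z) u v z

/-- the three bridge identities, packaged. -/
theorem bridge (K : Type) [CommRing K] : Bridge K :=
  fun u v z => ⟨bridge_HpH u v z, bridge_TpH u v z, bridge_dlH u v z⟩

end Fermat.Agent.S52lib.Cusp5
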