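/-
S52 library, block K6 (helper1), file 1: the cusps `(1 : g)`, `g² = g + 1`, of Klein's forms.

For `g² = g + 1` (golden ratio) in a commutative ring:
* `kf 1 g = 0` (the point `(1 : g)` is a vertex of the icosahedron),
* `kH 1 g = -(106250 + 171875 g)`, `kT 1 g = -(65859375 + 106562500 g)`,
* `kH 1 g * kT 1 g = (g + 2) (1390625 + 2250000 g)²`, `kH 1 g * kH 1 (1 - g) = 5¹⁰`,
* homogeneity: `kf x (g x) = 0`, `kH x (g x) = x²⁰ kH 1 g`, `kT x (g x) = x³⁰ kT 1 g`.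
κ-FACT: in a field with `5 ≠ 0`, `2 ≠ 0` and without primitive fifth roots of unity, `-(g + 2)` is
not a square (a square root `z` gives the fifth root of unity `((g - 1) + z) / 2`); hence
`-(kH x (g x) * kT x (g x))` is not a square for `x ≠ 0`.
-/
import Mathlib
import Fermat.Agent.S52lib.Klein.Forms

set_option autoImplicit false

namespace Fermat.Agent.S52lib.Cusp5

open Fermat.Agent.S52lib.Klein

section ring

variable {R : Type*} [CommRing R] {g : R}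

/-- the conjugate `1 - g` of the golden ratio satisfies the same equation. -/
theorem conj_sq (hg : g ^ 2 = g + 1) : (1 - g) ^ 2 = (1 - g) + 1 := by
  linear_combination hg

theorem kf_one_g (hg : g ^ 2 = g + 1) : kf 1 g = 0 := by
  unfold kf
  linear_combination (-g ^ 9 - g ^ 8 - 2 * g ^ 7 - 3 * g ^ 6 - 5 * g ^ 5 + 3 * g ^ 4 - 2 * g ^ 3
    + g ^ 2 - g) * hg

theorem kH_one_g (hg : g ^ 2 = g + 1) : kH 1 g = -(106250 + 171875 * g) := by
  unfold kH
  linear_combination (-g ^ 18 - g ^ 17 - 2 * g ^ 16 - 3 * g ^ 15 - 5 * g ^ 14 - 236 * g ^ 13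
    - 241 * g ^ 12 - 477 * g ^ 11 - 718 * g ^ 10 - 1195 * g ^ 9 - 2407 * g ^ 8 - 3602 * g ^ 7
    - 6009 * g ^ 6 - 9611 * g ^ 5 - 15620 * g ^ 4 - 25003 * g ^ 3 - 40623 * g ^ 2 - 65626 * g
    - 106249) * hg

theorem kT_one_g (hg : g ^ 2 = g + 1) : kT 1 g = -(65859375 + 106562500 * g) := by
  unfold kT
  linear_combination (g ^ 28 + g ^ 27 + 2 * g ^ 26 + 3 * g ^ 25 + 5 * g ^ 24 - 514 * g ^ 23
    - 509 * g ^ 22 - 1023 * g ^ 21 - 1532 * g ^ 20 - 2555 * g ^ 19 - 14092 * g ^ 18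
    - 16647 * g ^ 17 - 30739 * g ^ 16 - 47386 * g ^ 15 - 78125 * g ^ 14 - 125511 * g ^ 13
    - 203636 * g ^ 12 - 329147 * g ^ 11 - 532783 * g ^ 10 - 861930 * g ^ 9 - 1404718 * g ^ 8
    - 2266648 * g ^ 7 - 3671366 * g ^ 6 - 5938014 * g ^ 5 - 9609380 * g ^ 4 - 15546872 * g ^ 3
    - 25156252 * g ^ 2 - 40703124 * g - 65859376) * hg

/-- `H(1,g) T(1,g) = (g + 2) (1390625 + 2250000 g)²`. -/
theorem kH_mul_kT_one_g (hg : g ^ 2 = g + 1) :
    kH 1 g * kT 1 g = (g + 2) * (1390625 + 2250000 * g) ^ 2 := by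
  rw [kH_one_g hg, kT_one_g hg]
  linear_combination (-5062500000000 * g - 3129882812500) * hg

/-- `H(1,g) H(1,1-g) = 5¹⁰`. -/
theorem kH_mul_kH_conj (hg : g ^ 2 = g + 1) : kH 1 g * kH 1 (1 - g) = 5 ^ 10 := by
  rw [kH_one_g hg, kH_one_g (conj_sq hg)]
  linear_combination (-29541015625 : R) * hg

/-- homogeneity of `f` along the line `v = g u`. -/
theorem kf_line (hg : g ^ 2 = g + 1) (x : R) : kf x (g * x) = 0 := by
  have h : kf x (g * x) = x ^ 12 * kf 1 g := by unfold kf; ring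
  rw [h, kf_one_g hg, mul_zero]

omit g in
theorem kH_line (g x : R) : kH x (g * x) = x ^ 20 * kH 1 g := by unfold kH; ring

omit g in
theorem kT_line (g x : R) : kT x (g * x) = x ^ 30 * kT 1 g := by unfold kT; ring

/-- `-(H T)(x, g x) = (x²⁵ (1390625 + 2250000 g))² · (-(g + 2))`. -/
theorem neg_kH_mul_kT_line (hg : g ^ 2 = g + 1) (x : R) :
    -(kH x (g * x) * kT x (g * x))
      = (x ^ 25 * (1390625 + 2250000 * g)) ^ 2 * (-(g + 2)) := by
  rw [kH_line, kT_line]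
  have := kH_mul_kT_one_g hg
  linear_combination (-x ^ 50) * this

end ring

section field

variable {K : Type*} [Field K] {g : K}

theorem kH_one_g_ne_zero (h5 : (5 : K) ≠ 0) (hg : g ^ 2 = g + 1) : kH 1 g ≠ 0 := by
  intro h0
  have := kH_mul_kH_conj hg
  rw [h0, zero_mul] at this
  exact pow_ne_zero 10 h5 this.symm

theorem kT_one_g_ne_zero (h5 : (5 : K) ≠ 0) (hg : g ^ 2 = g + 1) : kT 1 g ≠ 0 := by
  intro h0
  have hk := klein (1 : K) g
  rw [h0, kf_one_g hg] at hk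
  have : kH 1 g ^ 3 = 0 := by linear_combination hk
  exact kH_one_g_ne_zero h5 hg (pow_eq_zero_iff (by norm_num) |>.mp this)

theorem const_ne_zero (h5 : (5 : K) ≠ 0) (hg : g ^ 2 = g + 1) :
    (1390625 + 2250000 * g : K) ≠ 0 := by
  intro h0
  have := kH_mul_kT_one_g hg
  rw [h0] at this
  have h1 : kH 1 g * kT 1 g = 0 := by rw [this]; ring
  rcases mul_eq_zero.mp h1 with h | h
  · exact kH_one_g_ne_zero h5 hg h
  · exact kT_one_g_ne_zero h5 hg h

/-- **κ-FACT.** Without primitive fifth roots of unity, `-(g + 2)` is not a square. -/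
theorem not_isSquare_neg_g_add_two (h2 : (2 : K) ≠ 0) (h5 : (5 : K) ≠ 0) (hg : g ^ 2 = g + 1)
    (hζ : ∀ ζ : K, ζ ^ 5 = 1 → ζ = 1) : ¬ IsSquare (-(g + 2)) := by
  rintro ⟨z, hz⟩
  -- `ζ = ((g - 1) + z) / 2` is a root of `ζ² - (g - 1) ζ + 1`
  set ζ : K := ((g - 1) + z) / 2 with hζdef
  have h2ζ : 2 * ζ = (g - 1) + z := by rw [hζdef]; field_simp
  have hquad : ζ ^ 2 - (g - 1) * ζ + 1 = 0 := by
    have h4 : (4 : K) ≠ 0 := by
      have : (4 : K) = 2 * 2 := by norm_num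
      rw [this]; exact mul_ne_zero h2 h2
    have : 4 * (ζ ^ 2 - (g - 1) * ζ + 1) = 0 := by
      have e : 4 * (ζ ^ 2 - (g - 1) * ζ + 1) = (2 * ζ) ^ 2 - 2 * (g - 1) * (2 * ζ) + 4 := by ring
      rw [e, h2ζ]
      linear_combination -hz - hg
    exact (mul_eq_zero.mp this).resolve_left h4
  have hcyc : ζ ^ 4 + ζ ^ 3 + ζ ^ 2 + ζ + 1 = 0 := by
    linear_combination (ζ ^ 2 + g * ζ + 1) * hquad + ζ ^ 2 * hg
  have h5ζ : ζ ^ 5 = 1 := by linear_combination (ζ - 1) * hcyc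
  have h1 := hζ ζ h5ζ
  rw [h1] at hcyc
  apply h5
  linear_combination hcyc

/-- On the line `v = g u` (a cusp), `-(H T)` is not a square. -/
theorem not_isSquare_neg_kH_mul_kT_line (h2 : (2 : K) ≠ 0) (h5 : (5 : K) ≠ 0)
    (hg : g ^ 2 = g + 1) (hζ : ∀ ζ : K, ζ ^ 5 = 1 → ζ = 1) {x : K} (hx : x ≠ 0) :
    ¬ IsSquare (-(kH x (g * x) * kT x (g * x))) := by
  rw [neg_kH_mul_kT_line hg]
  rintro ⟨w, hw⟩
  have hc : x ^ 25 * (1390625 + 2250000 * g) ≠ 0 :=
    mul_ne_zero (pow_ne_zero 25 hx) (const_ne_zero h5 hg)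
  apply not_isSquare_neg_g_add_two h2 h5 hg hζ
  generalize x ^ 25 * (1390625 + 2250000 * g) = c at hw hc
  refine ⟨w / c, ?_⟩
  rw [div_mul_div_comm, ← hw, pow_two]
  field_simp

end field

end Fermat.Agent.S52lib.Cusp5
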