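/-
S52 library, block K6 (helper1), file 2: on every line `e + 3 c · w(e)`, `w(e) = (f_v(e), -f_u(e))`
(the polar substitution of the Rubin–Silverberg family), through a point `e` with `f(e) ≠ 0`
there is a cusp `e' = (x, g' x)`, `g'² = g' + 1`, `x ≠ 0`; there `f(e') = 0` and (in a field
without primitive fifth roots of unity) `-(H(e') T(e'))` is not a square.
-/
import Mathlib
import Fermat.Agent.S52lib.Klein.Forms
import Fermat.Agent.S52lib.Cusp5.Kappa

set_option autoImplicit false

namespace Fermat.Agent.S52lib.Cusp5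

open Fermat.Agent.S52lib.Klein

variable {K : Type*} [Field K]

/-- The cusp on the line `e + 3 c · w(e)` in the direction `(1 : g)`, provided the linear equation
for `c` is non-degenerate. -/
theorem exists_cusp_of_ne_zero (h2 : (2 : K) ≠ 0) (h3 : (3 : K) ≠ 0) {g : K}
    {u v : K} (hf : kf u v ≠ 0) (hA : kfu u v + g * kfv u v ≠ 0) :
    ∃ c x : K, x ≠ 0 ∧ u + 3 * c * kfv u v = x ∧ v - 3 * c * kfu u v = g * x := by
  have h3A : 3 * (kfu u v + g * kfv u v) ≠ 0 := mul_ne_zero h3 hA
  refine ⟨(v - g * u) / (3 * (kfu u v + g * kfv u v)), u + 3 * ((v - g * u) /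
    (3 * (kfu u v + g * kfv u v))) * kfv u v, ?_, rfl, ?_⟩
  · intro hx
    -- then `e' = 0`, so `e` is proportional to `w(e)` and `12 f(e) = 0`
    set c := (v - g * u) / (3 * (kfu u v + g * kfv u v)) with hc
    have hy : v - 3 * c * kfu u v = 0 := by
      have : v - 3 * c * kfu u v = g * (u + 3 * c * kfv u v) := by
        rw [hc]; field_simp; ring
      rw [this, hx, mul_zero]
    have he := euler_kf u v
    have h12 : (12 : K) * kf u v = 0 := by
      rw [← he]
      linear_combination (kfu u v) * hx + (kfv u v) * hy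
    have h12' : (12 : K) ≠ 0 := by
      have : (12 : K) = 2 * 2 * 3 := by norm_num
      rw [this]; exact mul_ne_zero (mul_ne_zero h2 h2) h3
    exact hf ((mul_eq_zero.mp h12).resolve_left h12')
  · field_simp; ring

/-- **The cusp lemma.**  `K` a field with `2, 3, 5 ≠ 0`, containing the golden ratio `g` and no
primitive fifth root of unity; `e = (u, v)` with `f(e) ≠ 0`.  Then for some `c : K` the point
`e' = e + 3 c · (f_v(e), -f_u(e))` is a cusp (`f(e') = 0`) and `-(H(e') · T(e'))` is not a
square. -/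
theorem exists_cusp (h2 : (2 : K) ≠ 0) (h3 : (3 : K) ≠ 0) (h5 : (5 : K) ≠ 0) {g : K}
    (hg : g ^ 2 = g + 1) (hζ : ∀ ζ : K, ζ ^ 5 = 1 → ζ = 1) {u v : K} (hf : kf u v ≠ 0) :
    ∃ c : K, kf (u + 3 * c * kfv u v) (v - 3 * c * kfu u v) = 0 ∧
      ¬ IsSquare (-(kH (u + 3 * c * kfv u v) (v - 3 * c * kfu u v)
        * kT (u + 3 * c * kfv u v) (v - 3 * c * kfu u v))) := by
  -- one of the two directions `g`, `1 - g` is non-degenerate
  have key : ∀ g' : K, g' ^ 2 = g' + 1 → kfu u v + g' * kfv u v ≠ 0 →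
      ∃ c : K, kf (u + 3 * c * kfv u v) (v - 3 * c * kfu u v) = 0 ∧
        ¬ IsSquare (-(kH (u + 3 * c * kfv u v) (v - 3 * c * kfu u v)
          * kT (u + 3 * c * kfv u v) (v - 3 * c * kfu u v))) := by
    intro g' hg' hA
    obtain ⟨c, x, hx, e1, e2⟩ := exists_cusp_of_ne_zero h2 h3 hf hA
    refine ⟨c, ?_, ?_⟩
    · rw [e1, e2]; exact kf_line hg' x
    · rw [e1, e2]; exact not_isSquare_neg_kH_mul_kT_line h2 h5 hg' hζ hx
  by_cases hA : kfu u v + g * kfv u v = 0
  · apply key (1 - g) (conj_sq hg)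
    intro hB
    have hs : (2 * g - 1) ^ 2 = (5 : K) := by linear_combination (4 : K) * hg
    have hs0 : (2 * g - 1 : K) ≠ 0 := by
      intro e; rw [e] at hs; apply h5; rw [← hs]; ring
    have hv : kfv u v = 0 := by
      have : (2 * g - 1) * kfv u v = 0 := by linear_combination hA - hB
      exact (mul_eq_zero.mp this).resolve_left hs0
    have hu : kfu u v = 0 := by rw [hv, mul_zero, add_zero] at hA; exact hA
    have he := euler_kf u v
    rw [hu, hv, mul_zero, mul_zero, add_zero] at he
    have h12' : (12 : K) ≠ 0 := by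
      have : (12 : K) = 2 * 2 * 3 := by norm_num
      rw [this]; exact mul_ne_zero (mul_ne_zero h2 h2) h3
    exact hf ((mul_eq_zero.mp he.symm).resolve_left h12')
  · exact key g hg hA

end Fermat.Agent.S52lib.Cusp5
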