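/-
S52 library, block Cusp5 (helper4): **`cusp5 : Cusp5Statement`**, from helper1's `Cusp5.exists_cusp`
(the Klein-level cusp lemma), the bridge identities and the combination `cusp5_of_inputs`.
-/
import Mathlib
import Fermat.Agent.S52lib.Cusp5.Combine
import Fermat.Agent.S52lib.Cusp5.Cusp
import Fermat.Agent.S52lib.Cusp5.BridgeAll

set_option autoImplicit false

noncomputable section

namespace Fermat.Agent.S52lib.Cusp5

/-- helper1's cusp lemma in the shape `CuspLemma`. -/
theorem cuspLemma (K : Type) [Field K] : CuspLemma K :=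
  fun h2 h3 h5 ⟨_, hg⟩ hz _ _ hf => exists_cusp h2 h3 h5 hg hz hf

/-- **`Cusp5Statement` from the bridge identities.** -/
theorem cusp5_of_bridge (hbridge : ∀ (r : ℕ) [Fact r.Prime], Bridge (ZMod r)) : Cusp5Statement :=
  cusp5_of_inputs (fun r _ => cuspLemma (ZMod r)) hbridge

/-- **Block K6.** -/
theorem cusp5 : Cusp5Statement := cusp5_of_bridge (fun r _ => bridge (ZMod r))

end Fermat.Agent.S52lib.Cusp5
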